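/-
MW / W-part (helper21): the function field of `X₀(N)` over `ℚbar` satisfies the hypotheses of the
frozen statement S27 (`IsCurveOver`, `Algebra.EssFiniteType`).

The X0 library (S24) works with the generator predicate `FF.IsGen K x`; this file repackages its
theorems into the Prelude class `AlgebraicCurve.IsCurveOver`.  Everything is stated as a theorem
(no global instance), use `haveI := isCurveOver_modular N`.
-/
import Mathlib
import Fermat.Prelude.Def_AlgebraicCurve_IsCurveOver
import Fermat.Agent.X0.FFGenus
import Fermat.Agent.X0.HasCanDivInst

set_option autoImplicit false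
set_option linter.unusedSectionVars false

namespace Fermat.Agent.MW.Weak.CurveInst21

open AlgebraicCurve KaehlerDifferential Fermat.Agent.X0 Fermat.Agent.X0.FF

section General

variable {K F : Type*} [Field K] [Field F] [Algebra K F] [IsAlgClosed K] [CharZero K]

/-- `Ω[F⁄K]` has rank one as soon as it is spanned by one nonzero element. -/
theorem finrank_kaehler_eq_one_of_isGen {x : F} (hx : IsGen K x) :
    Module.finrank F Ω[F⁄K] = 1 := by
  have hspan : Submodule.span F {D K F x} = ⊤ := span_D_eq_top hx
  have hne : D K F x ≠ 0 := D_ne_zero hx
  rw [← finrank_top F Ω[F⁄K], ← hspan]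
  exact finrank_span_singleton hne

/-- A function field in one variable with a generator, over an algebraically closed field of
characteristic zero, is a curve in the sense of the Prelude. -/
theorem isCurveOver_of_isGen {x : F} (hx : IsGen K x) : IsCurveOver K F :=
  { toHasPrincipalDivisors := FFGenus.hasPrincipalDivisors hx
    finiteResidue := fun v => FF.finiteResidue hx v
    kaehler_free_rank_one :=
      ⟨Module.Free.of_divisionRing F Ω[F⁄K], finrank_kaehler_eq_one_of_isGen hx⟩ }

theorem essFiniteType_of_isGen {x : F} (hx : IsGen K x) : Algebra.EssFiniteType K F :=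
  hx.essFiniteType

end General

section Modular

variable (N : ℕ) [NeZero N]

/-- The function field of `X₀(N)` over `ℚbar` is a curve. -/
theorem isCurveOver_modular :
    IsCurveOver (AlgebraicClosure ℚ) ↥(ModularCurve.modularFunctionFieldBar N) :=
  isCurveOver_of_isGen (HasCanDivInst.isGen N)

/-- The function field of `X₀(N)` over `ℚbar` is essentially of finite type. -/
theorem essFiniteType_modular :
    Algebra.EssFiniteType (AlgebraicClosure ℚ) ↥(ModularCurve.modularFunctionFieldBar N) :=
  essFiniteType_of_isGen (HasCanDivInst.isGen N)

end Modular

end Fermat.Agent.MW.Weak.CurveInst21
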