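/-
MW (S17), W-part, helper21: ABSTRACT CORE of weak Mordell-Weil for `m = 2`.

Mathlib + the Prelude definition `IntermediateField.IsUnramifiedOutside` only.

* `finite_quotient_of_map`      : pigeonhole for quotients of abelian groups;
* `finiteIndex_of_halves_level` : `Γ` acting on `J`, `U ≤ Γ` of finite index fixing every `y` with
  `2 • y` rational, `J[2]` finite, rational points `2`-divisible in `J`  ⟹  `2 • J^Γ` has finite
  index in `J^Γ`;
* `fixingSubgroup_fixedField_of_le`, `finiteDimensional_fixedField_of_le` : Galois correspondence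
  for a subgroup of `Gal(ℚ̄/ℚ)` containing the fixing subgroup of a number field;
* `exists_level_of_halves`      : from (a) smoothness of the action, (b) finiteness of `J[2]`,
  (c) inertia at `q ∉ S` fixes every `y` with `τ • 2y = 2y`, (d) the Kummer/Hermite-Minkowski
  finiteness statement (shape of `PT/GLOB/H1Finite15.exists_field_forall_hom` for `p = 2`):
  ONE number field `F` such that `Gal(ℚ̄/F)` fixes every `y` with `2 • y` rational.
-/
import Mathlib
import Fermat.Prelude.Def_GroupCohomology_ContinuousUnramified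

set_option autoImplicit false
set_option linter.style.haveILetI false

namespace Fermat.Agent.MW.Weak.WeakCore21

theorem isAlgebraic_qbar21 : Algebra.IsAlgebraic ℚ (AlgebraicClosure ℚ) :=
  AlgebraicClosure.isAlgebraic ℚ

attribute [local instance] isAlgebraic_qbar21

local instance isAlgClosureQbar21 : IsAlgClosure ℚ (AlgebraicClosure ℚ) :=
  ⟨inferInstance, inferInstance⟩
local instance normalQbar21 : Normal ℚ (AlgebraicClosure ℚ) :=
  IsAlgClosure.normal ℚ (AlgebraicClosure ℚ)
local instance isGaloisQbar21 : IsGalois ℚ (AlgebraicClosure ℚ) :=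
  IsAlgClosure.isGalois ℚ (AlgebraicClosure ℚ)

/-! ### Pigeonhole -/

section Pigeonhole

/-- If a map into a finite type separates the cosets of `H`, then `G ⧸ H` is finite. -/
theorem finite_quotient_of_map {G X : Type*} [AddCommGroup G] (H : AddSubgroup G) [Finite X]
    (κ : G → X) (h : ∀ a b : G, κ a = κ b → a - b ∈ H) : Finite (G ⧸ H) := by
  classical
  have hsurj : Function.Surjective
      (fun r : Set.range κ => (QuotientAddGroup.mk (Classical.choose r.2) : G ⧸ H)) := by
    intro q
    obtain ⟨a, rfl⟩ := QuotientAddGroup.mk_surjective q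
    refine ⟨⟨κ a, a, rfl⟩, ?_⟩
    have hc : κ (Classical.choose (⟨κ a, a, rfl⟩ : Set.range κ).2) = κ a :=
      Classical.choose_spec (⟨κ a, a, rfl⟩ : Set.range κ).2
    show (QuotientAddGroup.mk _ : G ⧸ H) = QuotientAddGroup.mk a
    rw [QuotientAddGroup.eq]
    have := h _ _ hc
    have h2 : -(Classical.choose (⟨κ a, a, rfl⟩ : Set.range κ).2) + a =
        -((Classical.choose (⟨κ a, a, rfl⟩ : Set.range κ).2) - a) := by abel
    rw [h2]
    exact H.neg_mem this
  exact Finite.of_surjective _ hsurj

variable {Γ J : Type*} [Group Γ] [AddCommGroup J] [DistribMulAction Γ J]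

/-- **Abstract weak Mordell-Weil (`m = 2`).** -/
theorem finiteIndex_of_halves_level (U : Subgroup Γ) [Finite (Γ ⧸ U)]
    (hfin2 : {t : J | 2 • t = 0}.Finite)
    (hdiv : ∀ x : J, (∀ s : Γ, s • x = x) → ∃ y : J, 2 • y = x)
    (hU : ∀ y : J, (∀ s : Γ, s • (2 • y) = 2 • y) → ∀ s ∈ U, s • y = y) :
    (nsmulAddMonoidHom (α := ↥(FixedPoints.addSubgroup Γ J)) 2).range.FiniteIndex := by
  classical
  have hx : ∀ x : ↥(FixedPoints.addSubgroup Γ J), ∀ s : Γ, s • (x : J) = x := fun x s =>
    (FixedPoints.mem_addSubgroup Γ J (x : J)).1 x.2 s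
  choose half hhalf using fun x : ↥(FixedPoints.addSubgroup Γ J) => hdiv x (hx x)
  have hfix2 : ∀ (x : ↥(FixedPoints.addSubgroup Γ J)) (s : Γ),
      s • (2 • half x) = 2 • half x := fun x s => by rw [hhalf x]; exact hx x s
  have : Finite {t : J // 2 • t = 0} := hfin2.to_subtype
  have hmem : ∀ (x : ↥(FixedPoints.addSubgroup Γ J)) (s : Γ),
      2 • (s • half x - half x) = 0 := fun x s => by
    rw [smul_sub, smul_comm, hfix2 x s, sub_self]
  let κ : ↥(FixedPoints.addSubgroup Γ J) → (Γ ⧸ U → {t : J // 2 • t = 0}) :=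
    fun x q => ⟨q.out • half x - half x, hmem x q.out⟩
  have key : ∀ a b : ↥(FixedPoints.addSubgroup Γ J), κ a = κ b →
      a - b ∈ (nsmulAddMonoidHom (α := ↥(FixedPoints.addSubgroup Γ J)) 2).range := by
    intro a b hab
    -- the cocycles agree everywhere
    have hall : ∀ s : Γ, s • half a - half a = s • half b - half b := by
      intro s
      obtain ⟨u, hu⟩ := QuotientGroup.mk_out_eq_mul U s
      have hq := congrArg Subtype.val (congrFun hab (QuotientGroup.mk s : Γ ⧸ U))
      have hq' : (QuotientGroup.mk s : Γ ⧸ U).out • half a - half a =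
          (QuotientGroup.mk s : Γ ⧸ U).out • half b - half b := hq
      rw [hu, mul_smul, mul_smul, hU (half a) (hfix2 a) u u.2, hU (half b) (hfix2 b) u u.2] at hq'
      exact hq'
    have hz : ∀ s : Γ, s • (half a - half b) = half a - half b := by
      intro s
      have := hall s
      rw [smul_sub]
      have h1 : s • half a - s • half b = (s • half a - half a) - (s • half b - half b)
          + (half a - half b) := by abel
      rw [h1, this, sub_self, zero_add]
    refine ⟨⟨half a - half b, (FixedPoints.mem_addSubgroup Γ J _).2 hz⟩, ?_⟩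
    apply Subtype.ext
    show ((2 • (⟨half a - half b, _⟩ : ↥(FixedPoints.addSubgroup Γ J)) :
      ↥(FixedPoints.addSubgroup Γ J)) : J) = ((a - b : ↥(FixedPoints.addSubgroup Γ J)) : J)
    rw [AddSubgroup.coe_nsmul, AddSubgroup.coe_sub, smul_sub, hhalf a, hhalf b]
  have : Finite (↥(FixedPoints.addSubgroup Γ J) ⧸
      (nsmulAddMonoidHom (α := ↥(FixedPoints.addSubgroup Γ J)) 2).range) :=
    finite_quotient_of_map _ κ key
  exact AddSubgroup.finiteIndex_of_finite_quotient

end Pigeonhole

/-! ### Galois correspondence for open subgroups of `Gal(ℚ̄/ℚ)` -/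

section Galois

local notation "Qbar" => AlgebraicClosure ℚ
local notation "GQ" => (AlgebraicClosure ℚ ≃ₐ[ℚ] AlgebraicClosure ℚ)

/-- A subgroup of `Gal(ℚ̄/ℚ)` containing `Gal(ℚ̄/L)`, `L` a number field, is the fixing subgroup
of its fixed field. -/
theorem fixingSubgroup_fixedField_of_le (H : Subgroup GQ) (L : IntermediateField ℚ Qbar)
    [FiniteDimensional ℚ L] (hL : L.fixingSubgroup ≤ H) :
    (IntermediateField.fixedField H).fixingSubgroup = H := by
  have hopen : IsOpen (H : Set GQ) :=
    Subgroup.isOpen_mono hL (IntermediateField.fixingSubgroup_isOpen L)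
  have hclosed : IsClosed (H : Set GQ) := Subgroup.isClosed_of_isOpen H hopen
  exact InfiniteGalois.fixingSubgroup_fixedField ⟨H, hclosed⟩

/-- The fixed field of a subgroup containing `Gal(ℚ̄/L)` is contained in `L`. -/
theorem fixedField_le_of_le (H : Subgroup GQ) (L : IntermediateField ℚ Qbar)
    (hL : L.fixingSubgroup ≤ H) : IntermediateField.fixedField H ≤ L := by
  have h1 : IntermediateField.fixedField H ≤ IntermediateField.fixedField L.fixingSubgroup := by
    intro x hx
    rw [IntermediateField.mem_fixedField_iff] at hx ⊢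
    exact fun σ hσ => hx σ (hL hσ)
  rwa [InfiniteGalois.fixedField_fixingSubgroup L] at h1

theorem finiteDimensional_fixedField_of_le (H : Subgroup GQ) (L : IntermediateField ℚ Qbar)
    [FiniteDimensional ℚ L] (hL : L.fixingSubgroup ≤ H) :
    FiniteDimensional ℚ (IntermediateField.fixedField H) := by
  have hle := fixedField_le_of_le H L hL
  exact FiniteDimensional.of_injective (IntermediateField.inclusion hle).toLinearMap
    (IntermediateField.inclusion_injective hle)

/-- `Gal(ℚ̄/F)` has finite index for a number field `F`. -/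
theorem finite_quotient_fixingSubgroup (F : IntermediateField ℚ Qbar) [FiniteDimensional ℚ F] :
    Finite (GQ ⧸ F.fixingSubgroup) :=
  Subgroup.quotient_finite_of_isOpen F.fixingSubgroup (IntermediateField.fixingSubgroup_isOpen F)

end Galois

/-! ### The level of the halves of rational points -/

section Level

local notation "Qbar" => AlgebraicClosure ℚ
local notation "GQ" => (AlgebraicClosure ℚ ≃ₐ[ℚ] AlgebraicClosure ℚ)

variable {J : Type*} [AddCommGroup J] [DistribMulAction GQ J]

/-- `σ ↦ σ • y - y` for `y` with `2 • y` fixed: values in `J[2]`. -/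
theorem two_nsmul_smul_sub {y : J} (σ : GQ) (hy : σ • (2 • y) = 2 • y) :
    2 • (σ • y - y) = 0 := by
  rw [smul_sub, smul_comm, hy, sub_self]

/-- A nonzero vector of an elementary abelian `2`-group is detected by an additive map to
`ZMod 2`. -/
theorem exists_addMonoidHom_ne_zero {T : Type*} [AddCommGroup T] (hT : ∀ t : T, 2 • t = 0)
    (v : T) (hv : v ≠ 0) : ∃ φ : T →+ ZMod 2, φ v ≠ 0 := by
  letI : Module (ZMod 2) T := AddCommGroup.zmodModule hT
  haveI : Fact (Nat.Prime 2) := ⟨Nat.prime_two⟩
  have hker : LinearMap.ker (LinearMap.toSpanSingleton (ZMod 2) T v) = ⊥ :=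
    LinearMap.ker_toSpanSingleton (ZMod 2) hv
  obtain ⟨g, hg⟩ := LinearMap.exists_leftInverse_of_injective
    (LinearMap.toSpanSingleton (ZMod 2) T v) hker
  refine ⟨g.toAddMonoidHom, ?_⟩
  have h1 : g (LinearMap.toSpanSingleton (ZMod 2) T v 1) = 1 := by
    have := LinearMap.congr_fun hg (1 : ZMod 2)
    simpa using this
  rw [LinearMap.toSpanSingleton_apply, one_smul] at h1
  show g v ≠ 0
  rw [h1]
  exact one_ne_zero

variable (S : Finset Nat.Primes)

/-- **One number field for all halves.**  See the file header. -/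
theorem exists_level_of_halves
    (hlev : ∀ y : J, ∃ L : IntermediateField ℚ Qbar, FiniteDimensional ℚ L ∧
      ∀ σ : GQ, (∀ a ∈ L, σ a = a) → σ • y = y)
    (hfin2 : {t : J | 2 • t = 0}.Finite)
    (hinert : ∀ q : Nat.Primes, q ∉ S → ∀ A : ValuationSubring Qbar, A.LiesOverPrime (q : ℕ) →
      ∀ τ ∈ A.inertiaSubgroupIn ℚ, ∀ y : J, τ • (2 • y) = 2 • y → τ • y = y)
    (hHM : ∀ F₀ : IntermediateField ℚ Qbar, F₀.IsUnramifiedOutside S →
      ∃ F₁ : IntermediateField ℚ Qbar, F₀ ≤ F₁ ∧ FiniteDimensional ℚ F₁ ∧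
        ∀ χ : GQ → ZMod 2,
          (∀ s ∈ F₀.fixingSubgroup, ∀ t ∈ F₀.fixingSubgroup, χ (s * t) = χ s + χ t) →
          (∃ E : IntermediateField ℚ Qbar, E.IsUnramifiedOutside S ∧
            ∀ s ∈ E.fixingSubgroup, s ∈ F₀.fixingSubgroup → χ s = 0) →
          ∀ s ∈ F₁.fixingSubgroup, χ s = 0) :
    ∃ F : IntermediateField ℚ Qbar, FiniteDimensional ℚ F ∧
      ∀ y : J, (∀ s : GQ, s • (2 • y) = 2 • y) → ∀ s ∈ F.fixingSubgroup, s • y = y := by
  classical
  -- stabilisers are open: a general helper
  have hstab : ∀ y : J, ∃ L : IntermediateField ℚ Qbar, FiniteDimensional ℚ L ∧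
      L.fixingSubgroup ≤ MulAction.stabilizer GQ y := by
    intro y
    obtain ⟨L, hL, h⟩ := hlev y
    refine ⟨L, hL, fun σ hσ => ?_⟩
    rw [MulAction.mem_stabilizer_iff]
    exact h σ fun a ha => (IntermediateField.mem_fixingSubgroup_iff L σ).1 hσ a ha
  -- the pointwise stabiliser of `J[2]`
  let H : Subgroup GQ := ⨅ t : {t : J // 2 • t = 0}, MulAction.stabilizer GQ (t : J)
  have hHmem : ∀ σ : GQ, σ ∈ H ↔ ∀ t : J, 2 • t = 0 → σ • t = t := by
    intro σ
    simp only [H, Subgroup.mem_iInf, MulAction.mem_stabilizer_iff, Subtype.forall]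
  -- a number field over which `J[2]` is rational
  have : Finite {t : J // 2 • t = 0} := hfin2.to_subtype
  obtain ⟨L2, hL2fin, hL2⟩ : ∃ L : IntermediateField ℚ Qbar, FiniteDimensional ℚ L ∧
      L.fixingSubgroup ≤ H := by
    choose Lt hLtfin hLt using fun t : {t : J // 2 • t = 0} => hstab (t : J)
    haveI := hLtfin
    refine ⟨⨆ t, Lt t, IntermediateField.finiteDimensional_iSup_of_finite, fun σ hσ => ?_⟩
    simp only [H, Subgroup.mem_iInf]
    intro t
    exact hLt t (IntermediateField.fixingSubgroup_antitone (le_iSup Lt t) hσ)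
  haveI := hL2fin
  let F₀ : IntermediateField ℚ Qbar := IntermediateField.fixedField H
  have hF₀fix : F₀.fixingSubgroup = H := fixingSubgroup_fixedField_of_le H L2 hL2
  have hF₀fin : FiniteDimensional ℚ F₀ := finiteDimensional_fixedField_of_le H L2 hL2
  have hF₀unr : F₀.IsUnramifiedOutside S := by
    refine ⟨hF₀fin, fun q hq A hA τ hτ => ?_⟩
    rw [hF₀fix, hHmem]
    intro t ht
    exact hinert q hq A hA τ hτ t (by rw [ht, smul_zero])
  obtain ⟨F₁, -, hF₁fin, hF₁⟩ := hHM F₀ hF₀unr
  refine ⟨F₁, hF₁fin, fun y hy s hs => ?_⟩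
  by_contra hne
  -- the cocycle of `y`, with values in `J[2]`
  let T : AddSubgroup J :=
    { carrier := {t | 2 • t = 0}
      zero_mem' := smul_zero 2
      add_mem' := fun {a b} ha hb => by
        show 2 • (a + b) = 0
        rw [smul_add, ha, hb, add_zero]
      neg_mem' := fun {a} ha => by
        show 2 • (-a) = 0
        rw [smul_neg, ha, neg_zero] }
  have hT : ∀ t : T, 2 • t = 0 := fun t => Subtype.ext (by
    rw [AddSubgroup.coe_nsmul]; exact t.2)
  let d : GQ → T := fun σ => ⟨σ • y - y, two_nsmul_smul_sub σ (hy σ)⟩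
  have hds : d s ≠ 0 := by
    intro h0
    apply hne
    have := congrArg Subtype.val h0
    exact sub_eq_zero.1 this
  obtain ⟨φ, hφ⟩ := exists_addMonoidHom_ne_zero hT (d s) hds
  apply hφ
  refine hF₁ (fun σ => φ (d σ)) ?_ ?_ s hs
  · -- additivity on `Gal(ℚ̄/F₀)`
    intro a ha b hb
    rw [← map_add]
    congr 1
    apply Subtype.ext
    show (a * b) • y - y = (a • y - y) + (b • y - y)
    have hfix : a • (b • y - y) = b • y - y := by
      rw [hF₀fix, hHmem] at ha
      exact ha _ (two_nsmul_smul_sub b (hy b))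
    rw [mul_smul]
    have : a • b • y - y = a • (b • y - y) + (a • y - y) := by
      rw [smul_sub]; abel
    rw [this, hfix]
    abel
  · -- killed by the stabiliser of `y`, whose fixed field is unramified outside `S`
    obtain ⟨Ly, hLyfin, hLy⟩ := hstab y
    haveI := hLyfin
    refine ⟨IntermediateField.fixedField (MulAction.stabilizer GQ y), ⟨?_, ?_⟩, ?_⟩
    · exact finiteDimensional_fixedField_of_le _ Ly hLy
    · intro q hq A hA τ hτ
      rw [fixingSubgroup_fixedField_of_le _ Ly hLy, MulAction.mem_stabilizer_iff]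
      exact hinert q hq A hA τ hτ y (hy τ)
    · intro σ hσ _
      rw [fixingSubgroup_fixedField_of_le _ Ly hLy, MulAction.mem_stabilizer_iff] at hσ
      have : d σ = 0 := Subtype.ext (by
        show σ • y - y = 0
        rw [hσ, sub_self])
      rw [this, map_zero]

end Level

end Fermat.Agent.MW.Weak.WeakCore21
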