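/-
MW (S17), W-part, helper21: **weak Mordell-Weil for `m = 2` from `2`-divisibility alone.**

`Div2 N` : every RATIONAL point of `J₀(N)(ℚ̄)` is `2 • y` for some `y ∈ J₀(N)(ℚ̄)`.

`weakMW2_of_div2 : Div2 N → Top7.WeakMW2 N`.  All arithmetic inputs are theorems of the library:
* `ES/GAL/OpenStab12.hasLevel_pic0`            (every point is fixed by an open subgroup),
* `ES/KUM/FiniteTorsion15.finite_setOf_nsmul_eq_zero` (`J₀(N)[2]` is finite),
* `ES/TOP/TorsionGalois12.sp`                  (good reduction at `ℓ ∤ N`: an inertia-invariant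
  homomorphism injective on prime-to-`ℓ` torsion),
* `PT/GLOB/H1Finite15.exists_field_forall_hom` (Kummer theory + finiteness of the `S`-Selmer group).
The group theory is in `WeakCore21`.
-/
import Fermat.Agent.MW.Top7
import Fermat.Agent.MW.Weak.WeakCore21
import Fermat.Agent.ES.GAL.OpenStab12
import Fermat.Agent.ES.KUM.FiniteTorsion15
import Fermat.Agent.ES.TOP.TorsionGalois12
import Fermat.Agent.PT.GLOB.H1Finite15

set_option autoImplicit false
set_option linter.style.haveILetI false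
set_option linter.unusedSectionVars false

namespace Fermat.Agent.MW.Weak.WeakOfDiv21

open ModularCurve AlgebraicCurve Fermat.Agent.MW.Top7 Fermat.Agent.MW.Weak.WeakCore21

local notation "Qbar" => AlgebraicClosure ℚ

/-- **(W1)** `2`-divisibility of the rational points inside `J₀(N)(ℚ̄)`. -/
def Div2 (N : ℕ) : Prop :=
  ∀ x : JZero N, (∀ s : GQ, s • x = x) → ∃ y : JZero N, 2 • y = x

/-- The primes dividing `2 N`. -/
noncomputable def badPrimes (N : ℕ) : Finset Nat.Primes :=
  ((2 * N).primeFactors.subtype Nat.Prime : Finset {p : ℕ // p.Prime})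

theorem not_dvd_of_not_mem_badPrimes {N : ℕ} [NeZero N] {q : Nat.Primes}
    (hq : q ∉ badPrimes N) : ¬ (q : ℕ) ∣ 2 ∧ ¬ (q : ℕ) ∣ N := by
  have h : ¬ (q : ℕ) ∣ 2 * N := by
    intro hdvd
    apply hq
    exact (Finset.mem_subtype (p := Nat.Prime) (s := (2 * N).primeFactors) (a := q)).2
      (Nat.mem_primeFactors.2 ⟨q.2, hdvd, Nat.mul_ne_zero two_ne_zero (NeZero.ne N)⟩)
  exact ⟨fun h2 => h (Dvd.dvd.mul_right h2 N), fun hN => h (Dvd.dvd.mul_left hN 2)⟩

variable (N : ℕ) [NeZero N]

/-- Inertia at `q ∤ 2N` fixes every `y` with `τ • 2y = 2y`. -/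
theorem inertia_smul_eq_of_two_nsmul {q : Nat.Primes} (hq : q ∉ badPrimes N)
    (A : ValuationSubring Qbar) (hA : A.LiesOverPrime (q : ℕ))
    (τ : GQ) (hτ : τ ∈ A.inertiaSubgroupIn ℚ) (y : JZero N) (hy : τ • (2 • y) = 2 • y) :
    τ • y = y := by
  obtain ⟨hq2, hqN⟩ := not_dvd_of_not_mem_badPrimes hq
  obtain ⟨G, _, Φ, h1, -, h3⟩ := Fermat.Agent.ES.TOP.TorsionGalois12.sp N (q : ℕ) q.2 hqN A hA
  rw [← sub_eq_zero]
  refine h3 2 (τ • y - y) hq2 (two_nsmul_smul_sub τ hy) ?_
  rw [map_sub, h1 τ hτ y, sub_self]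

/-- **One number field over which all halves of rational points are defined.** -/
theorem exists_level_of_halves_JZero :
    ∃ F : IntermediateField ℚ Qbar, FiniteDimensional ℚ F ∧
      ∀ y : JZero N, (∀ s : GQ, s • (2 • y) = 2 • y) → ∀ s ∈ F.fixingSubgroup, s • y = y := by
  refine exists_level_of_halves (J := JZero N) (badPrimes N)
    (fun y => Fermat.Agent.ES.GAL.OpenStab12.hasLevel_pic0 N y)
    (Fermat.Agent.ES.KUM.FiniteTorsion15.finite_setOf_nsmul_eq_zero N 2)
    (fun q hq A hA τ hτ y hy => inertia_smul_eq_of_two_nsmul N hq A hA τ hτ y hy)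
    (fun F₀ hF₀ => ?_)
  haveI := hF₀.1
  have hζ : IsPrimitiveRoot (-1 : Qbar) 2 := IsPrimitiveRoot.neg_one 0 (by norm_num)
  exact Fermat.Agent.PT.GLOB.H1Finite15.exists_field_forall_hom Nat.prime_two (badPrimes N) F₀ hF₀
    hζ (neg_mem (one_mem F₀))

/-- **Weak Mordell-Weil (`m = 2`) for `J₀(N)(ℚ)` from `2`-divisibility.** -/
theorem weakMW2_of_div2 (h : Div2 N) : WeakMW2 N := by
  obtain ⟨F, hFfin, hF⟩ := exists_level_of_halves_JZero N
  haveI := hFfin
  haveI := finite_quotient_fixingSubgroup F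
  exact finiteIndex_of_halves_level F.fixingSubgroup
    (Fermat.Agent.ES.KUM.FiniteTorsion15.finite_setOf_nsmul_eq_zero N 2) h hF

/-- `Div2` follows from `2`-divisibility of the whole group `J₀(N)(ℚ̄) = Pic⁰(ℚ̄(X₀(N)))`
(which the Jacobian chapter supplies: `Pic⁰` of a curve over an algebraically closed field of
characteristic zero is divisible). -/
theorem div2_of_divisible (h : ∀ x : JZero N, ∃ y : JZero N, 2 • y = x) : Div2 N :=
  fun x _ => h x

/-- Mordell-Weil from the height contract and `2`-divisibility. -/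
theorem fg_of_heightMain_of_div2 (hH : HeightMain N) (h : Div2 N) :
    AddGroup.FG ↥(FixedPoints.addSubgroup GQ (JZero N)) :=
  fg_of_contracts N (weakMW2_of_div2 N h) hH

end Fermat.Agent.MW.Weak.WeakOfDiv21
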