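/-
MW (S17), W-part, helper21: **`Div2 N` from the Jacobian package of the S27 track.**

`JAC/Final27/Divisible1.pic0_nsmul_surjective_of_package` (helper1) gives the divisibility of
`Pic⁰(K, F)` from a `Skeleton1.JacPackage K F` (a Jacobian of `F / K` with `J(K) ≃+ Pic⁰(K, F)`);
`CurveInst21` shows that the pair `(ℚ̄, ℚ̄(X₀(N)))` satisfies the S27 hypotheses.  Hence:

* `div2_of_jacPackage`          : a Jacobian package for the modular pair gives `Div2 N`;
* `div2_of_packageStatement`    : the S27 package statement (universe `0`) gives `Div2 N`;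
* `fg_of_heightMain_of_packageStatement` : Mordell-Weil for `J₀(N)(ℚ)` from the height contract
  and the package statement.
-/
import Fermat.Agent.MW.Weak.WeakOfDiv21
import Fermat.Agent.MW.Weak.CurveInst21
import Fermat.Agent.JAC.Final27.Divisible1

set_option autoImplicit false
set_option linter.style.haveILetI false

namespace Fermat.Agent.MW.Weak.Div2OfPackage21

open ModularCurve AlgebraicCurve Fermat.Agent.MW.Top7 Fermat.Agent.MW.Weak.WeakOfDiv21
  Fermat.Agent.MW.Weak.CurveInst21 Fermat.Agent.JAC.Final27

local notation "Qbar" => AlgebraicClosure ℚ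

variable (N : ℕ) [NeZero N]

section NoDimension

open CategoryTheory AlgebraicGeometry NeronModelInfra GoodReductionJacobian

/-- `2`-divisibility of `J₀(N)(ℚ̄)` from ANY commutative abelian scheme `J / ℚ̄` with an additive
bijection `J(ℚ̄) ≃ J₀(N)(ℚ̄)`; no dimension statement is needed (so this does not wait for the
comparison `dim J = genusFF`). -/
theorem jzero_two_divisible_of_jacobian {J : Scheme.{0}}
    {f : J ⟶ Spec (CommRingCat.of Qbar)} (L : RelativeGroupLaw Qbar f) (hc : L.IsCommutative)
    (hA : AbelianSchemePropertyBundle Qbar f)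
    (e : SchemeHomOver (𝟙 (Spec (CommRingCat.of Qbar))) f ≃ JZero N)
    (he : ∀ x y, e (L.mul (𝟙 (Spec (CommRingCat.of Qbar))) x y) = e x + e y) (x : JZero N) :
    ∃ y : JZero N, 2 • y = x :=
  Skeleton1.nsmul_surjective_of_points L e he 2
    (Divisible1.exists_nsmul_eq L hc hA 2 (Nat.cast_ne_zero.mpr two_ne_zero)) x

/-- `Div2 N` from any commutative abelian scheme with `J(ℚ̄) ≃+ J₀(N)(ℚ̄)`. -/
theorem div2_of_jacobian {J : Scheme.{0}}
    {f : J ⟶ Spec (CommRingCat.of Qbar)} (L : RelativeGroupLaw Qbar f) (hc : L.IsCommutative)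
    (hA : AbelianSchemePropertyBundle Qbar f)
    (e : SchemeHomOver (𝟙 (Spec (CommRingCat.of Qbar))) f ≃ JZero N)
    (he : ∀ x y, e (L.mul (𝟙 (Spec (CommRingCat.of Qbar))) x y) = e x + e y) : Div2 N :=
  div2_of_divisible N (jzero_two_divisible_of_jacobian N L hc hA e he)

end NoDimension

/-- `2`-divisibility of `J₀(N)(ℚ̄)` from a Jacobian package of the modular pair. -/
theorem jzero_two_divisible_of_jacPackage
    (hJ : Skeleton1.JacPackage.{0} Qbar ↥(modularFunctionFieldBar N)) (x : JZero N) :
    ∃ y : JZero N, 2 • y = x :=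
  Divisible1.pic0_nsmul_surjective_of_package hJ 2
    (Nat.cast_ne_zero.mpr two_ne_zero) x

/-- `Div2 N` from a Jacobian package of the modular pair. -/
theorem div2_of_jacPackage
    (hJ : Skeleton1.JacPackage.{0} Qbar ↥(modularFunctionFieldBar N)) : Div2 N :=
  div2_of_divisible N (jzero_two_divisible_of_jacPackage N hJ)

/-- The modular pair satisfies the hypotheses of the S27 package statement. -/
theorem jacPackage_modular (hpkg : Skeleton1.PackageStatement.{0}) :
    Skeleton1.JacPackage.{0} Qbar ↥(modularFunctionFieldBar N) := by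
  haveI := isCurveOver_modular N
  haveI := essFiniteType_modular N
  exact hpkg Qbar ↥(modularFunctionFieldBar N)

/-- `Div2 N` from the S27 package statement. -/
theorem div2_of_packageStatement (hpkg : Skeleton1.PackageStatement.{0}) : Div2 N :=
  div2_of_jacPackage N (jacPackage_modular N hpkg)

/-- Weak Mordell-Weil (`m = 2`) from the S27 package statement. -/
theorem weakMW2_of_packageStatement (hpkg : Skeleton1.PackageStatement.{0}) : WeakMW2 N :=
  weakMW2_of_div2 N (div2_of_packageStatement N hpkg)

/-- **Mordell-Weil for `J₀(N)(ℚ)`** from the height contract and the S27 package statement. -/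
theorem fg_of_heightMain_of_packageStatement (hpkg : Skeleton1.PackageStatement.{0})
    (hH : HeightMain N) : AddGroup.FG ↥(FixedPoints.addSubgroup GQ (JZero N)) :=
  fg_of_heightMain_of_div2 N hH (div2_of_packageStatement N hpkg)

end Fermat.Agent.MW.Weak.Div2OfPackage21
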